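/-
S48 (Deligne-Serre), block BB, sub-block H (Hecke operators for `Γ₁(M)`).  Owner: helper166.
The representatives of the Hecke operator `T_p` for `Γ₁(M)`, for an arbitrary `σ ∈ Γ₀(M)` with lower
right entry `p` (`repT1 M p = rep1 p (sig M p)` in `BB/H/Defs.lean`, helper119).
-/
import Fermat.Agent.S48.A.Exists
import Fermat.Agent.S48.A.HeckeInv

set_option autoImplicit false

namespace Fermat.Agent.S48.BB.H

open CongruenceSubgroup UpperHalfPlane ModularForm Matrix.SpecialLinearGroup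
open scoped MatrixGroups ModularForm OnePoint
open P2MW.S_ModularForm_heckeT_slash_eq_self_of_mem_Gamma0.ModularForm.HeckeSlashInvariance
open Fermat.Agent.S48.A

/-- The representatives of `T_p` for `Γ₁(M)`: `(1 j; 0 p)` for `j` modulo `p` and `σ (p 0; 0 1)`,
where `σ ∈ Γ₀(M)` has lower right entry `p` modulo `M`. -/
noncomputable def rep1 (p : ℕ) (σ : SL(2, ℤ)) (x : OnePoint (ZMod p)) : GL (Fin 2) ℝ :=
  mapGL ℝ (del p σ x) * heckeRep p x

theorem rep1_infty (p : ℕ) (σ : SL(2, ℤ)) : rep1 p σ ∞ = mapGL ℝ σ * heckeDiagMatrix p := rfl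

theorem rep1_coe (p : ℕ) (σ : SL(2, ℤ)) (j : ZMod p) :
    rep1 p σ (j : OnePoint (ZMod p)) = heckeMatrix p j.val := by
  show mapGL ℝ (1 : SL(2, ℤ)) * heckeMatrix p j.val = _
  rw [map_one, one_mul]

theorem det_rep1_pos (p : ℕ) (σ : SL(2, ℤ)) (x : OnePoint (ZMod p)) :
    0 < ((rep1 p σ x).det : ℝ) := by
  induction x using OnePoint.rec with
  | infty =>
    rw [rep1_infty, map_mul, Units.val_mul]
    have h1 : (((mapGL ℝ σ : GL (Fin 2) ℝ).det : ℝˣ) : ℝ) = 1 := by simp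
    rw [h1, one_mul]
    exact det_heckeDiagMatrix_pos p
  | coe j =>
    rw [rep1_coe]
    exact det_heckeMatrix_pos p j.val

/-- The fundamental commutation relation: right multiplication by `γ ∈ Γ₀(M)` permutes the
cosets `Γ₁(M) rep1 x`, up to an element of `Γ₀(M)` with the same lower right entry as `γ`. -/
theorem rep1_mul {M p : ℕ} [Fact p.Prime] (hpM : ¬ p ∣ M) {σ : SL(2, ℤ)} (hσ : σ ∈ Gamma0 M)
    (hσp : dd M σ = (p : ZMod M)) {γ : SL(2, ℤ)} (hγ : γ ∈ Gamma0 M) (x : OnePoint (ZMod p)) :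
    ∃ g' : SL(2, ℤ), g' ∈ Gamma0 M ∧ dd M g' = dd M γ ∧
      rep1 p σ x * mapGL ℝ γ = mapGL ℝ g' * rep1 p σ (redMatrix p γ • x) := by
  have hp : p.Prime := Fact.out
  have hcN : (M : ℤ) ∣ γ 1 0 := (ZMod.intCast_zmod_eq_zero_iff_dvd _ _).mp (Gamma0_mem.mp hγ)
  obtain ⟨g, hg, hmul⟩ := heckeRep_mul hpM γ hcN x
  have hgM : g ∈ Gamma0 M := Gamma0_mem.mpr ((ZMod.intCast_zmod_eq_zero_iff_dvd _ _).mpr hg)
  have hu := uu_mul_dd (N := M) hp.ne_zero hγ hgM hmul
  set y := redMatrix p γ • x with hy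
  have h1 : del p σ x * g ∈ Gamma0 M := Subgroup.mul_mem _ (del_mem hσ x) hgM
  refine ⟨del p σ x * g * (del p σ y)⁻¹,
    Subgroup.mul_mem _ h1 (Subgroup.inv_mem _ (del_mem hσ y)), ?_, ?_⟩
  · rw [dd_mul h1, dd_mul (del_mem hσ x), dd_del hσp, hu, mul_comm (uu M p y), mul_assoc,
      ← dd_del hσp y, dd_mul_dd_inv (del_mem hσ y), mul_one]
  · rw [rep1, rep1, mul_assoc, hmul, map_mul, map_mul, map_inv]
    group

end Fermat.Agent.S48.BB.H
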