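/-
S48 (Deligne-Serre), block BB, sub-block H (architect helper119).
DEFINITIONS shared with the blocks T, M, TOP (on top of helper166's `BB/H/Rep.lean`: `rep1`, and of
helper144's `BB/M/Hecke.lean`: `M.inclH`):

* `mem_H1_one_iff` : `γ ∈ H1 M 1 ↔ γ ∈ Γ₀(M) ∧ (d(γ) = 1 ∨ d(γ) = -1)`;
* `sig M d ∈ Γ₀(M)` with lower right entry `d` modulo `M` (`d : ZMod M` a unit; junk `1` otherwise);
* `repT1 M p : OnePoint (ZMod p) → GL₂(ℝ)`: `j ↦ (1 j; 0 p)`, `∞ ↦ σ_p (p 0; 0 1)`;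
* `repD M d : Unit → GL₂(ℝ)`: `σ_d`.
-/
import Fermat.Agent.S48.BB.Base
import Fermat.Agent.S48.BB.H.Rep
import Fermat.Agent.S48.BB.M.Hecke
import Fermat.Agent.Lib.HeckeHom.Gamma0

set_option autoImplicit false

noncomputable section

namespace Fermat.Agent.S48.BB.H

open Matrix.SpecialLinearGroup CongruenceSubgroup ModularForm
open Fermat.Agent.S48.A Fermat.Agent.Lib.HeckeHom
open scoped MatrixGroups OnePoint
open P2MW.S_ModularForm_heckeT_slash_eq_self_of_mem_Gamma0.ModularForm.HeckeSlashInvariance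

variable {M : ℕ}

theorem dd_neg_one : dd M (-1) = -1 := by
  simp [dd]

theorem neg_one_mem_Gamma0 : (-1 : SL(2, ℤ)) ∈ Gamma0 M := by
  rw [Gamma0_mem]; simp

/-- `{γ ∈ Γ₀(M) | d(γ) = ± 1}` as a subgroup. -/
def pmSub (M : ℕ) : Subgroup SL(2, ℤ) where
  carrier := {γ | γ ∈ Gamma0 M ∧ (dd M γ = 1 ∨ dd M γ = -1)}
  one_mem' := ⟨Subgroup.one_mem _, Or.inl dd_one⟩
  mul_mem' := by
    rintro a b ⟨ha, ha'⟩ ⟨hb, hb'⟩
    refine ⟨Subgroup.mul_mem _ ha hb, ?_⟩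
    rw [dd_mul ha]
    rcases ha' with h | h <;> rcases hb' with h' | h' <;> rw [h, h'] <;> simp
  inv_mem' := by
    rintro a ⟨ha, ha'⟩
    refine ⟨Subgroup.inv_mem _ ha, ?_⟩
    have h := dd_mul_dd_inv ha
    rcases ha' with h' | h' <;> rw [h'] at h
    · left; simpa using h
    · right
      have : dd M a⁻¹ = -(-1 * dd M a⁻¹) := by ring
      rw [this, h]

theorem mem_pmSub {γ : SL(2, ℤ)} :
    γ ∈ pmSub M ↔ γ ∈ Gamma0 M ∧ (dd M γ = 1 ∨ dd M γ = -1) := Iff.rfl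

theorem pmGamma1_eq : pmGamma1 M = pmSub M := by
  apply le_antisymm
  · rw [pmGamma1, sup_le_iff]
    constructor
    · intro γ hγ
      exact ⟨(mem_Gamma1_iff.mp hγ).1, Or.inl (mem_Gamma1_iff.mp hγ).2⟩
    · rw [Subgroup.zpowers_le]
      exact ⟨neg_one_mem_Gamma0, Or.inr dd_neg_one⟩
  · rintro γ ⟨h0, h1 | h1⟩
    · exact Subgroup.mem_sup_left (mem_Gamma1_iff.mpr ⟨h0, h1⟩)
    · have h2 : γ * (-1) ∈ Gamma1 M := by
        rw [mem_Gamma1_iff]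
        refine ⟨Subgroup.mul_mem _ h0 neg_one_mem_Gamma0, ?_⟩
        rw [dd_mul h0, h1, dd_neg_one]; simp
      have h3 : γ = (γ * (-1)) * (-1) := by simp
      rw [h3]
      exact Subgroup.mul_mem _ (Subgroup.mem_sup_left h2)
        (Subgroup.mem_sup_right (Subgroup.mem_zpowers _))

theorem mem_H1_one_iff {γ : SL(2, ℤ)} :
    γ ∈ H1 M 1 ↔ γ ∈ Gamma0 M ∧ (dd M γ = 1 ∨ dd M γ = -1) := by
  rw [H1, Subgroup.mem_inf, pmGamma1_eq, mul_one, mem_pmSub]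
  tauto

theorem Gamma1_le_H1 : Gamma1 M ≤ H1 M 1 := fun _ hγ =>
  mem_H1_one_iff.mpr ⟨(mem_Gamma1_iff.mp hγ).1, Or.inl (mem_Gamma1_iff.mp hγ).2⟩

theorem H1_le_Gamma0 : H1 M 1 ≤ Gamma0 M := fun _ hγ => (mem_H1_one_iff.mp hγ).1

theorem neg_one_mem_H1 : (-1 : SL(2, ℤ)) ∈ H1 M 1 :=
  mem_H1_one_iff.mpr ⟨neg_one_mem_Gamma0, Or.inr dd_neg_one⟩

/-- membership in `H1 M 1` only depends on membership in `Γ₀(M)` and on `dd`. -/
theorem mem_H1_of_dd_eq {γ g : SL(2, ℤ)} (hγ : γ ∈ H1 M 1) (hg : g ∈ Gamma0 M)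
    (h : dd M g = dd M γ) : g ∈ H1 M 1 := by
  rw [mem_H1_one_iff] at hγ ⊢
  exact ⟨hg, by rw [h]; exact hγ.2⟩

theorem isUnit_natCast_of_prime (M : ℕ) {p : ℕ} (hp : p.Prime) (hpM : ¬ p ∣ M) :
    IsUnit ((p : ℕ) : ZMod M) := by
  rw [ZMod.isUnit_iff_coprime]
  exact (Nat.Prime.coprime_iff_not_dvd hp).mpr hpM

variable (M) [NeZero M]

/-- `σ_d ∈ Γ₀(M)` with lower right entry `d` modulo `M` (junk value `1` if `d` is not a unit). -/
def sig (d : ZMod M) : SL(2, ℤ) :=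
  if h : IsUnit d then (exists_mem_Gamma0_dd_eq (p := 1) (Nat.coprime_one_left M) h).choose else 1

theorem sig_mem (d : ZMod M) : sig M d ∈ Gamma0 M := by
  unfold sig
  split_ifs with h
  · exact (exists_mem_Gamma0_dd_eq (p := 1) (Nat.coprime_one_left M) h).choose_spec.1
  · exact Subgroup.one_mem _

variable {M} in
theorem dd_sig {d : ZMod M} (hd : IsUnit d) : dd M (sig M d) = d := by
  unfold sig
  rw [dif_pos hd]
  exact (exists_mem_Gamma0_dd_eq (p := 1) (Nat.coprime_one_left M) hd).choose_spec.2.1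

/-- Representatives for `T_p` on `±Γ₁(M)`: `j ↦ (1 j; 0 p)`, `∞ ↦ σ_p (p 0; 0 1)`. -/
def repT1 (p : ℕ) : OnePoint (ZMod p) → GL (Fin 2) ℝ := rep1 p (sig M (p : ZMod M))

theorem repT1_infty (p : ℕ) :
    repT1 M p ∞ = mapGL ℝ (sig M (p : ZMod M)) * heckeDiagMatrix p := rfl

theorem repT1_coe (p : ℕ) (j : ZMod p) :
    repT1 M p (j : OnePoint (ZMod p)) = heckeMatrix p j.val := rep1_coe p _ j

/-- The representative for the diamond operator `⟨d⟩`. -/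
def repD (d : ZMod M) (_ : Unit) : GL (Fin 2) ℝ := mapGL ℝ (sig M d)

theorem repD_apply (d : ZMod M) (u : Unit) : repD M d u = mapGL ℝ (sig M d) := rfl

theorem repT1_det_pos (p : ℕ) (x : OnePoint (ZMod p)) : 0 < (repT1 M p x).det.val :=
  det_rep1_pos p _ x

theorem repD_det_pos (d : ZMod M) (u : Unit) : 0 < (repD M d u).det.val := by
  rw [repD]; simp

end Fermat.Agent.S48.BB.H

end
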