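/-
S48 (Deligne-Serre), block BB, sub-block H (architect helper119).
The Hecke families `T_p` and `⟨d⟩` for `H1 M 1 = ±Γ₁(M)` and the operators `TH`, `DH` on
`Hom(±Γ₁(M), A)`.
-/
import Fermat.Agent.S48.BB.H.Defs

set_option autoImplicit false

noncomputable section

namespace Fermat.Agent.S48.BB.H

open Matrix.SpecialLinearGroup CongruenceSubgroup ModularForm
open Fermat.Agent.S48.A Fermat.Agent.Lib.HeckeHom
open Fermat.Agent.S48.BB.M (inclH inclH_apply inclH_injective)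
open scoped MatrixGroups OnePoint
open P2MW.S_ModularForm_heckeT_slash_eq_self_of_mem_Gamma0.ModularForm.HeckeSlashInvariance

variable (M : ℕ)

/-- `rep1 p σ` is a Hecke family for `±Γ₁(M)` when `p` is a prime not dividing `M`, `σ ∈ Γ₀(M)` has
lower right entry `p` modulo `M`. -/
theorem isHeckeFamily_rep1 {p : ℕ} [Fact p.Prime] (hpM : ¬ p ∣ M) {σ : SL(2, ℤ)}
    (hσ : σ ∈ Gamma0 M) (hσp : dd M σ = (p : ZMod M)) :
    IsHeckeFamily (inclH (H1 M 1)) (rep1 p σ) where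
  inj := inclH_injective _
  disj x y g e := by
    refine (isHeckeFamily_T (N := M) hpM).disj x y
      ⟨(del p σ x)⁻¹ * (g : SL(2, ℤ)) * del p σ y,
        Subgroup.mul_mem _ (Subgroup.mul_mem _ (Subgroup.inv_mem _ (del_mem hσ x))
          (H1_le_Gamma0 g.2)) (del_mem hσ y)⟩ ?_
    rw [incl_apply]
    show heckeRep p x = _ * heckeRep p y
    rw [rep1, rep1, inclH_apply] at e
    rw [map_mul, map_mul, map_inv, mul_assoc, mul_assoc, ← e, inv_mul_cancel_left]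
  stable x γ := by
    obtain ⟨g, hg, hdd, hmul⟩ := rep1_mul hpM hσ hσp (H1_le_Gamma0 γ.2) x
    exact ⟨_, ⟨g, mem_H1_of_dd_eq γ.2 hg hdd⟩, hmul⟩

/-- conjugation by an element of `Γ₀(M)` does not change `dd`. -/
theorem dd_conj {σ γ : SL(2, ℤ)} (hσ : σ ∈ Gamma0 M) (hγ : γ ∈ Gamma0 M) :
    dd M (σ * γ * σ⁻¹) = dd M γ := by
  rw [dd_mul (Subgroup.mul_mem _ hσ hγ), dd_mul hσ, mul_comm (dd M σ), mul_assoc,
    dd_mul_dd_inv hσ, mul_one]

variable {M} in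
theorem conj_mem_H1 {σ γ : SL(2, ℤ)} (hσ : σ ∈ Gamma0 M) (hγ : γ ∈ H1 M 1) :
    σ * γ * σ⁻¹ ∈ H1 M 1 :=
  mem_H1_of_dd_eq hγ (Subgroup.mul_mem _ (Subgroup.mul_mem _ hσ (H1_le_Gamma0 hγ))
    (Subgroup.inv_mem _ hσ)) (dd_conj M hσ (H1_le_Gamma0 hγ))

/-- a single element of `Γ₀(M)` is a Hecke family for `±Γ₁(M)`. -/
theorem isHeckeFamily_single {σ : SL(2, ℤ)} (hσ : σ ∈ Gamma0 M) :
    IsHeckeFamily (inclH (H1 M 1)) (fun _ : Unit => mapGL ℝ σ) where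
  inj := inclH_injective _
  disj _ _ _ _ := rfl
  stable _ γ := by
    refine ⟨(), ⟨σ * (γ : SL(2, ℤ)) * σ⁻¹, conj_mem_H1 hσ γ.2⟩, ?_⟩
    rw [inclH_apply, inclH_apply, ← map_mul, ← map_mul]
    simp

variable [NeZero M]

/-- `T_p` is a Hecke family for `±Γ₁(M)` when `p` is a prime not dividing `M`. -/
theorem isHeckeFamily_T1 {p : ℕ} (hp : p.Prime) (hpM : ¬ p ∣ M) :
    IsHeckeFamily (inclH (H1 M 1)) (repT1 M p) :=
  haveI : Fact p.Prime := ⟨hp⟩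
  isHeckeFamily_rep1 M hpM (sig_mem M _) (dd_sig (isUnit_natCast_of_prime M hp hpM))

/-- `⟨d⟩` is a Hecke family for `±Γ₁(M)`. -/
theorem isHeckeFamily_D (d : ZMod M) : IsHeckeFamily (inclH (H1 M 1)) (repD M d) :=
  isHeckeFamily_single M (sig_mem M d)

variable {A B : Type*} [AddCommGroup A] [AddCommGroup B]

/-- The operator `T_p` on `Hom(±Γ₁(M), A)`. -/
def TH {p : ℕ} (hp : p.Prime) (hpM : ¬ p ∣ M) :
    (Additive (H1 M 1) →+ A) →+ (Additive (H1 M 1) →+ A) :=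
  haveI : NeZero p := ⟨hp.ne_zero⟩
  (isHeckeFamily_T1 M hp hpM).heckeHom

/-- The diamond operator `⟨d⟩` on `Hom(±Γ₁(M), A)`. -/
def DH (d : ZMod M) : (Additive (H1 M 1) →+ A) →+ (Additive (H1 M 1) →+ A) :=
  (isHeckeFamily_D M d).heckeHom

theorem TH_comp {p : ℕ} (hp : p.Prime) (hpM : ¬ p ∣ M) (g : A →+ B)
    (ψ : Additive (H1 M 1) →+ A) : TH M hp hpM (g.comp ψ) = g.comp (TH M hp hpM ψ) :=
  haveI : NeZero p := ⟨hp.ne_zero⟩
  (isHeckeFamily_T1 M hp hpM).heckeHom_comp g ψ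

theorem DH_comp (d : ZMod M) (g : A →+ B) (ψ : Additive (H1 M 1) →+ A) :
    DH M d (g.comp ψ) = g.comp (DH M d ψ) :=
  (isHeckeFamily_D M d).heckeHom_comp g ψ

/-- explicit formula for the diamond operator: `(⟨d⟩ ψ)(γ) = ψ(σ_d γ σ_d⁻¹)`. -/
theorem DH_apply (d : ZMod M) (ψ : Additive (H1 M 1) →+ A) (γ : H1 M 1) :
    DH M d ψ (Additive.ofMul γ) =
      ψ (Additive.ofMul ⟨sig M d * (γ : SL(2, ℤ)) * (sig M d)⁻¹, conj_mem_H1 (sig_mem M d) γ.2⟩) := by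
  rw [DH, IsHeckeFamily.heckeHom_apply, Finset.univ_unique, Finset.sum_singleton]
  congr 2
  refine (isHeckeFamily_D M d).coc_eq (j := ()) ?_
  rw [repD_apply, inclH_apply, inclH_apply, ← map_mul, ← map_mul]
  simp

/-- the diamond operators commute. -/
theorem DH_comm (d e : ZMod M) (ψ : Additive (H1 M 1) →+ A) :
    DH M d (DH M e ψ) = DH M e (DH M d ψ) := by
  refine AddMonoidHom.ext fun γ => ?_
  obtain ⟨γ, rfl⟩ := Additive.ofMul.surjective γ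
  rw [DH_apply, DH_apply, DH_apply, DH_apply]
  set s := sig M d with hs
  set t := sig M e with ht
  have hsm : s ∈ Gamma0 M := sig_mem M d
  have htm : t ∈ Gamma0 M := sig_mem M e
  -- the commutator lies in `Γ₁(M)`
  have hc : t * s * t⁻¹ * s⁻¹ ∈ H1 M 1 := by
    apply Gamma1_le_H1
    rw [mem_Gamma1_iff]
    refine ⟨Subgroup.mul_mem _ (Subgroup.mul_mem _ (Subgroup.mul_mem _ htm hsm)
      (Subgroup.inv_mem _ htm)) (Subgroup.inv_mem _ hsm), ?_⟩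
    rw [dd_mul (Subgroup.mul_mem _ (Subgroup.mul_mem _ htm hsm) (Subgroup.inv_mem _ htm)),
      dd_conj M htm hsm, dd_mul_dd_inv hsm]
  set c : H1 M 1 := ⟨_, hc⟩ with hcdef
  set x : H1 M 1 := ⟨s * (⟨t * (γ : SL(2, ℤ)) * t⁻¹, conj_mem_H1 htm γ.2⟩ : H1 M 1) * s⁻¹,
    conj_mem_H1 hsm (conj_mem_H1 htm γ.2)⟩ with hx
  have key : (⟨t * (⟨s * (γ : SL(2, ℤ)) * s⁻¹, conj_mem_H1 hsm γ.2⟩ : H1 M 1) * t⁻¹,
      conj_mem_H1 htm (conj_mem_H1 hsm γ.2)⟩ : H1 M 1) = c * x * c⁻¹ := by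
    apply Subtype.ext
    simp only [hcdef, hx, Subgroup.coe_mul, Subgroup.coe_inv]
    group
  rw [key, ofMul_mul, ofMul_mul, ofMul_inv, map_add, map_add, map_neg]
  abel

end Fermat.Agent.S48.BB.H

end
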