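/-
S48 (Deligne-Serre), block BB, sub-block H (architect helper119).
Hecke operators attached to Hecke families in `GL₂(ℝ)` preserve the integral homomorphisms killing
the parabolic and elliptic elements (`Top.homPE H ℤ`).
-/
import Fermat.Agent.S48.BB.H.Fam
import Fermat.Agent.S48.BB.Top.Contract
import Fermat.Agent.S21.Parabolic
import Fermat.Agent.S21.CohomBound

set_option autoImplicit false

namespace Fermat.Agent.S48.BB.H

open Matrix.SpecialLinearGroup CongruenceSubgroup ModularGroup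
open Fermat.Agent.Lib.HeckeHom
open Fermat.Agent.S48.BB.M (inclH inclH_apply inclH_injective)
open scoped MatrixGroups

/-! ### Abstract part -/

section Abstract

variable {Γ G ι : Type*} [Group Γ] [Group G] {φ : Γ →* G} {α : ι → G}

theorem permEquiv_pow (h : IsHeckeFamily φ α) (γ : Γ) (m : ℕ) :
    h.permEquiv (γ ^ m) = (h.permEquiv γ) ^ m := by
  induction m with
  | zero =>
    ext i
    simp [h.perm_one]
  | succ m ih =>
    ext i
    rw [pow_succ, pow_succ', Equiv.Perm.mul_apply, ← ih]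
    simp only [IsHeckeFamily.permEquiv_apply]
    exact h.perm_mul _ _ i

/-- some positive power of `γ` fixes all the cosets. -/
theorem exists_pow_perm_eq [Finite ι] (h : IsHeckeFamily φ α) (γ : Γ) :
    ∃ m : ℕ, 0 < m ∧ ∀ i, α i * φ (γ ^ m) = φ (h.coc (γ ^ m) i) * α i := by
  classical
  have := Fintype.ofFinite ι
  refine ⟨orderOf (h.permEquiv γ), orderOf_pos _, fun i => ?_⟩
  have h1 := h.spec (γ ^ orderOf (h.permEquiv γ)) i
  have h2 : h.perm (γ ^ orderOf (h.permEquiv γ)) i = i := by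
    rw [← IsHeckeFamily.permEquiv_apply, permEquiv_pow, pow_orderOf_eq_one]
    rfl
  rw [h2] at h1
  exact h1

end Abstract

/-! ### Traces -/

theorem trace_mapGL (δ : SL(2, ℤ)) :
    ((mapGL ℝ δ : GL (Fin 2) ℝ) : Matrix (Fin 2) (Fin 2) ℝ).trace =
      (((δ : Matrix (Fin 2) (Fin 2) ℤ).trace : ℤ) : ℝ) := by
  simp [Matrix.trace_fin_two]

theorem trace_eq_of_conj {a : GL (Fin 2) ℝ} {δ ε : SL(2, ℤ)}
    (h : a * mapGL ℝ δ = mapGL ℝ ε * a) :
    (ε : Matrix (Fin 2) (Fin 2) ℤ).trace = (δ : Matrix (Fin 2) (Fin 2) ℤ).trace := by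
  have h1 : mapGL ℝ ε = a * mapGL ℝ δ * a⁻¹ := by rw [h, mul_inv_cancel_right]
  have h2 : ((mapGL ℝ ε : GL (Fin 2) ℝ) : Matrix (Fin 2) (Fin 2) ℝ).trace =
      ((mapGL ℝ δ : GL (Fin 2) ℝ) : Matrix (Fin 2) (Fin 2) ℝ).trace := by
    rw [h1, Units.val_mul, Units.val_mul]
    exact Matrix.trace_units_conj a _
  rw [trace_mapGL, trace_mapGL] at h2
  exact_mod_cast h2

theorem trace_conj_T_pow (g : SL(2, ℤ)) (k : ℕ) :
    ((g⁻¹ * T ^ k * g : SL(2, ℤ)) : Matrix (Fin 2) (Fin 2) ℤ).trace = 2 := by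
  simp only [Matrix.SpecialLinearGroup.coe_mul]
  rw [Matrix.trace_mul_comm, ← Matrix.mul_assoc, ← Matrix.SpecialLinearGroup.coe_mul,
    mul_inv_cancel, Matrix.SpecialLinearGroup.coe_one, Matrix.one_mul]
  have h3 := coe_T_zpow (k : ℤ)
  rw [zpow_natCast] at h3
  rw [h3]
  simp [Matrix.trace_fin_two]

/-- an element of `SL₂(ℤ)` of trace `2` is conjugate to a power of `T`. -/
theorem exists_conj_T_zpow {δ : SL(2, ℤ)} (hδ : (δ : Matrix (Fin 2) (Fin 2) ℤ).trace = 2) :
    ∃ (g : SL(2, ℤ)) (n : ℤ), δ = g⁻¹ * T ^ n * g := by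
  obtain ⟨d, hd⟩ := Fermat.Agent.S21.exists_conj_lower_left_eq_zero δ (by rw [hδ]; norm_num)
  set X := d⁻¹ * δ * d with hX
  have htr : (X : Matrix (Fin 2) (Fin 2) ℤ).trace = 2 := by
    rw [hX]
    simp only [Matrix.SpecialLinearGroup.coe_mul]
    rw [Matrix.trace_mul_comm, ← Matrix.mul_assoc, ← Matrix.SpecialLinearGroup.coe_mul,
      mul_inv_cancel, Matrix.SpecialLinearGroup.coe_one, Matrix.one_mul, hδ]
  rw [Matrix.trace_fin_two] at htr
  have hdet : X 0 0 * X 1 1 - X 0 1 * X 1 0 = 1 := by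
    have := X.det_coe
    rwa [Matrix.det_fin_two] at this
  rw [hd, mul_zero, sub_zero] at hdet
  have h00 : X 0 0 = 1 := by
    have h1 : X 1 1 = 2 - X 0 0 := by linarith
    rw [h1] at hdet
    have h2 : (X 0 0 - 1) ^ 2 = 0 := by nlinarith
    have h3 := pow_eq_zero_iff (two_ne_zero) |>.mp h2
    linarith
  have h11 : X 1 1 = 1 := by linarith
  have hXT : X = T ^ (X 0 1) := by
    ext i j
    rw [coe_T_zpow]
    fin_cases i <;> fin_cases j <;> simp [h00, h11, hd]
  refine ⟨d⁻¹, X 0 1, ?_⟩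
  rw [← hXT, hX]
  group

/-! ### Homomorphisms killing the parabolic and elliptic elements -/

variable {H : Subgroup SL(2, ℤ)}

/-- an element of `homPE` kills the elements of trace `2`. -/
theorem apply_eq_zero_of_trace {A : Type*} [AddCommGroup A] {ψ : Additive H →+ A}
    (hψ : ψ ∈ Top.homPE H A) (δ : H)
    (hδ : ((δ : SL(2, ℤ)) : Matrix (Fin 2) (Fin 2) ℤ).trace = 2) : ψ (Additive.ofMul δ) = 0 := by
  obtain ⟨g, n, hn⟩ := exists_conj_T_zpow hδ
  rw [Top.mem_homPE] at hψ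
  obtain ⟨k, rfl | rfl⟩ := n.eq_nat_or_neg
  · rw [zpow_natCast] at hn
    have hmem : g⁻¹ * T ^ k * g ∈ H := hn ▸ δ.2
    have := hψ T (by simp) k g hmem
    rwa [show (⟨_, hmem⟩ : H) = δ from Subtype.ext hn.symm] at this
  · have hn' : ((δ⁻¹ : H) : SL(2, ℤ)) = g⁻¹ * T ^ k * g := by
      rw [Subgroup.coe_inv, hn, zpow_neg, zpow_natCast]
      group
    have hmem : g⁻¹ * T ^ k * g ∈ H := hn' ▸ (δ⁻¹).2
    have := hψ T (by simp) k g hmem
    rw [show (⟨_, hmem⟩ : H) = δ⁻¹ from Subtype.ext hn'.symm, ofMul_inv, map_neg,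
      neg_eq_zero] at this
    exact this

/-- a homomorphism to `ℤ` kills the elements of finite order. -/
theorem apply_eq_zero_of_pow_eq_one (χ : Additive H →+ ℤ) (γ : H) {m : ℕ} (hm : 0 < m)
    (h : γ ^ m = 1) : χ (Additive.ofMul γ) = 0 := by
  have h3 : m • χ (Additive.ofMul γ) = 0 := by
    rw [← map_nsmul, ← ofMul_pow, h, ofMul_one, map_zero]
  rcases smul_eq_zero.mp h3 with h | h
  · omega
  · exact h

/-- **Hecke operators preserve `homPE H ℤ`.** -/
theorem heckeHom_mem_homPE {ι : Type*} [Fintype ι] {α : ι → GL (Fin 2) ℝ}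
    (h : IsHeckeFamily (inclH H) α) {ψ : Additive H →+ ℤ} (hψ : ψ ∈ Top.homPE H ℤ) :
    h.heckeHom ψ ∈ Top.homPE H ℤ := by
  rw [Top.mem_homPE]
  intro σ hσ k g hmem
  have hconj : ∀ m : ℕ, (g⁻¹ * σ ^ k * g) ^ m = g⁻¹ * σ ^ (k * m) * g := by
    intro m
    have := conj_pow (a := g⁻¹) (b := σ ^ k) (i := m)
    rw [inv_inv] at this
    rw [this, pow_mul]
  have htors : ∀ m : ℕ, 0 < m → σ ^ m = 1 →
      h.heckeHom ψ (Additive.ofMul (⟨_, hmem⟩ : H)) = 0 := by
    intro m hm hσm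
    refine apply_eq_zero_of_pow_eq_one _ _ hm (Subtype.ext ?_)
    rw [Subgroup.coe_pow, Subgroup.coe_one, hconj, mul_comm k m, pow_mul, hσm, one_pow, mul_one,
      inv_mul_cancel]
  rcases hσ with rfl | rfl | hσ
  · exact htors 4 (by norm_num) Fermat.Agent.S21.CohomBound.S_pow_four
  · exact htors 6 (by norm_num) Fermat.Agent.S21.CohomBound.ST_pow_six
  · rw [Set.mem_singleton_iff] at hσ
    subst hσ
    set γ : H := ⟨_, hmem⟩ with hγ
    obtain ⟨m, hm, hspec⟩ := exists_pow_perm_eq h γ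
    have h1 : h.heckeHom ψ (Additive.ofMul (γ ^ m)) = 0 := by
      rw [IsHeckeFamily.heckeHom_apply]
      refine Finset.sum_eq_zero fun i _ => apply_eq_zero_of_trace hψ _ ?_
      have h2 := hspec i
      rw [inclH_apply, inclH_apply] at h2
      rw [trace_eq_of_conj h2, Subgroup.coe_pow, hγ]
      simp only
      rw [hconj]
      exact trace_conj_T_pow g _
    rw [ofMul_pow, map_nsmul] at h1
    rcases smul_eq_zero.mp h1 with h | h
    · omega
    · exact h

/-! ### The fields `fg`, `TH_mem`, `DH_mem` of `Top.HBlock` -/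

instance finiteIndex_H1 (M : ℕ) [NeZero M] : (H1 M 1).FiniteIndex :=
  Subgroup.finiteIndex_of_le (H := Gamma1 M) Gamma1_le_H1

theorem fg_H1 (M : ℕ) [NeZero M] : Group.FG ↥(H1 M 1) := by
  have : Group.FG SL(2, ℤ) := by
    rw [Group.fg_iff]
    exact ⟨{ModularGroup.S, ModularGroup.T}, _root_.SpecialLinearGroup.SL2Z_generators, by simp⟩
  exact Subgroup.fg_of_index_ne_zero _

end Fermat.Agent.S48.BB.H
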