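/-
S48 (Deligne-Serre), block BB, sub-block H / T-e (helper119).
Hecke operators attached to Hecke families in `GL₂(ℝ)` preserve `Top.homPE (H1 M 1) A` for EVERY
abelian group `A`, when `4 ≤ M` (orbit sums; the elliptic elements of `±Γ₁(M)` are `±1`).
-/
import Fermat.Agent.S48.BB.H.Par

set_option autoImplicit false

namespace Fermat.Agent.S48.BB.H.ParGen

open Matrix.SpecialLinearGroup CongruenceSubgroup ModularGroup
open Fermat.Agent.Lib.HeckeHom
open Fermat.Agent.S48.BB.M (inclH inclH_apply inclH_injective)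
open scoped MatrixGroups

/-! ### Orbit sums -/

/-- if all the sums of `f` along the closed paths of a permutation vanish, then the total sum
vanishes. -/
theorem sum_eq_zero_of_orbit {ι A : Type*} [Fintype ι] [AddCommMonoid A] (π : Equiv.Perm ι)
    (f : ι → A)
    (h : ∀ (i : ι) (m : ℕ), 0 < m → (π ^ m) i = i → ∑ j ∈ Finset.range m, f ((π ^ j) i) = 0) :
    ∑ i, f i = 0 := by
  classical
  have key : ∀ s : Finset ι, (∀ i ∈ s, π i ∈ s) → ∑ i ∈ s, f i = 0 := by
    intro s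
    induction s using Finset.strongInduction with
    | H s ih =>
      intro hs
      rcases s.eq_empty_or_nonempty with rfl | ⟨i, hi⟩
      · simp
      set m := Function.minimalPeriod π i with hm
      have hper : i ∈ Function.periodicPts π := by
        refine ⟨orderOf π, orderOf_pos π, ?_⟩
        rw [Function.IsPeriodicPt, Function.IsFixedPt, Equiv.Perm.iterate_eq_pow,
          pow_orderOf_eq_one]
        rfl
      have hm0 : 0 < m := Function.minimalPeriod_pos_of_mem_periodicPts hper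
      have hmi : (π ^ m) i = i := by
        have := Function.isPeriodicPt_minimalPeriod π i
        rwa [Function.IsPeriodicPt, Function.IsFixedPt, Equiv.Perm.iterate_eq_pow] at this
      set O : Finset ι := (Finset.range m).image (fun j => (π ^ j) i) with hO
      have hinj : Set.InjOn (fun j => (π ^ j) i) (Finset.range m : Set ℕ) := by
        intro a ha b hb hab
        have := Function.iterate_injOn_Iio_minimalPeriod (f := π) (x := i)
          (by simpa using ha) (by simpa using hb)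
        apply this
        simpa [Equiv.Perm.iterate_eq_pow] using hab
      have hsumO : ∑ x ∈ O, f x = 0 := by
        rw [hO, Finset.sum_image hinj]
        exact h i m hm0 hmi
      have hpow : ∀ j : ℕ, (π ^ j) i ∈ s := by
        intro j
        induction j with
        | zero => simpa using hi
        | succ j ihj =>
          rw [pow_succ', Equiv.Perm.mul_apply]
          exact hs _ ihj
      have hOs : O ⊆ s := by
        intro x hx
        rw [hO, Finset.mem_image] at hx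
        obtain ⟨j, _, rfl⟩ := hx
        exact hpow j
      have hiO : i ∈ O := by
        rw [hO, Finset.mem_image]
        exact ⟨0, by simpa using hm0, by simp⟩
      have hlt : s \ O ⊂ s := by
        refine Finset.ssubset_iff_subset_ne.mpr ⟨Finset.sdiff_subset, fun he => ?_⟩
        have : i ∈ s \ O := by rw [he]; exact hi
        exact (Finset.mem_sdiff.mp this).2 hiO
      have hinv : ∀ x ∈ s \ O, π x ∈ s \ O := by
        intro x hx
        rw [Finset.mem_sdiff] at hx ⊢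
        refine ⟨hs x hx.1, fun hπ => hx.2 ?_⟩
        rw [hO, Finset.mem_image] at hπ ⊢
        obtain ⟨j, hj, hjx⟩ := hπ
        rw [Finset.mem_range] at hj
        rcases Nat.eq_zero_or_pos j with rfl | hj0
        · refine ⟨m - 1, by simp; omega, ?_⟩
          apply π.injective
          simp only [pow_zero, Equiv.Perm.one_apply] at hjx
          rw [← hjx, ← Equiv.Perm.mul_apply, ← pow_succ', Nat.sub_add_cancel hm0, hmi]
        · refine ⟨j - 1, by simp; omega, ?_⟩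
          apply π.injective
          rw [← hjx, ← Equiv.Perm.mul_apply, ← pow_succ', Nat.sub_add_cancel hj0]
      rw [← Finset.sum_sdiff hOs, hsumO, add_zero]
      exact ih _ hlt hinv
  exact key Finset.univ (fun _ _ => Finset.mem_univ _)

section Abstract

variable {Γ G ι : Type*} [Group Γ] [Group G] {φ : Γ →* G} {α : ι → G}

theorem map_coc_pow {A : Type*} [AddCommGroup A] (h : IsHeckeFamily φ α) (ψ : Additive Γ →+ A)
    (γ : Γ) (i : ι) (m : ℕ) :
    ψ (Additive.ofMul (h.coc (γ ^ m) i)) =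
      ∑ j ∈ Finset.range m, ψ (Additive.ofMul (h.coc γ ((h.permEquiv γ ^ j) i))) := by
  induction m with
  | zero => simp [h.coc_one]
  | succ m ih =>
    rw [pow_succ, h.coc_mul, ofMul_mul, map_add, ih, Finset.sum_range_succ, ← permEquiv_pow,
      IsHeckeFamily.permEquiv_apply]

/-- criterion for the vanishing of `heckeHom ψ` at `γ`. -/
theorem heckeHom_apply_eq_zero {A : Type*} [AddCommGroup A] [Fintype ι] (h : IsHeckeFamily φ α)
    (ψ : Additive Γ →+ A) (γ : Γ)
    (hz : ∀ (i : ι) (m : ℕ) (δ : Γ), 0 < m → α i * φ (γ ^ m) = φ δ * α i →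
      ψ (Additive.ofMul δ) = 0) :
    h.heckeHom ψ (Additive.ofMul γ) = 0 := by
  rw [IsHeckeFamily.heckeHom_apply]
  refine sum_eq_zero_of_orbit (h.permEquiv γ) _ fun i m hm hi => ?_
  rw [← map_coc_pow]
  refine hz i m _ hm ?_
  have h1 := h.spec (γ ^ m) i
  rw [← permEquiv_pow, IsHeckeFamily.permEquiv_apply] at hi
  rwa [hi] at h1

end Abstract

/-! ### Traces of the elements of `±Γ₁(M)` -/

theorem trace_conj (g X : SL(2, ℤ)) :
    ((g⁻¹ * X * g : SL(2, ℤ)) : Matrix (Fin 2) (Fin 2) ℤ).trace =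
      (X : Matrix (Fin 2) (Fin 2) ℤ).trace := by
  simp only [Matrix.SpecialLinearGroup.coe_mul]
  rw [Matrix.trace_mul_comm, ← Matrix.mul_assoc, ← Matrix.SpecialLinearGroup.coe_mul,
    mul_inv_cancel, Matrix.SpecialLinearGroup.coe_one, Matrix.one_mul]

theorem trace_S_pow (k : ℕ) :
    ((S ^ k : SL(2, ℤ)) : Matrix (Fin 2) (Fin 2) ℤ).trace = 2 ∨
      ((S ^ k : SL(2, ℤ)) : Matrix (Fin 2) (Fin 2) ℤ).trace = 0 ∨
      ((S ^ k : SL(2, ℤ)) : Matrix (Fin 2) (Fin 2) ℤ).trace = -2 := by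
  rw [pow_eq_pow_mod k Fermat.Agent.S21.CohomBound.S_pow_four]
  have hk : k % 4 < 4 := Nat.mod_lt _ (by norm_num)
  simp only [Matrix.SpecialLinearGroup.coe_pow, coe_S]
  interval_cases k % 4 <;> simp [pow_succ, Matrix.trace_fin_two]

theorem trace_ST_pow (k : ℕ) :
    (((S * T) ^ k : SL(2, ℤ)) : Matrix (Fin 2) (Fin 2) ℤ).trace = 2 ∨
      (((S * T) ^ k : SL(2, ℤ)) : Matrix (Fin 2) (Fin 2) ℤ).trace = 1 ∨
      (((S * T) ^ k : SL(2, ℤ)) : Matrix (Fin 2) (Fin 2) ℤ).trace = -1 ∨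
      (((S * T) ^ k : SL(2, ℤ)) : Matrix (Fin 2) (Fin 2) ℤ).trace = -2 := by
  rw [pow_eq_pow_mod k Fermat.Agent.S21.CohomBound.ST_pow_six]
  have hk : k % 6 < 6 := Nat.mod_lt _ (by norm_num)
  simp only [Matrix.SpecialLinearGroup.coe_pow, Matrix.SpecialLinearGroup.coe_mul, coe_S, coe_T]
  interval_cases k % 6 <;> simp [pow_succ, Matrix.trace_fin_two]

theorem trace_cast_of_mem_H1 {M : ℕ} {γ : SL(2, ℤ)} (hγ : γ ∈ H1 M 1) :
    (((γ : Matrix (Fin 2) (Fin 2) ℤ).trace : ℤ) : ZMod M) = 2 ∨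
      (((γ : Matrix (Fin 2) (Fin 2) ℤ).trace : ℤ) : ZMod M) = -2 := by
  obtain ⟨h0, h1⟩ := mem_H1_one_iff.mp hγ
  rw [Gamma0_mem] at h0
  have hdet : γ 0 0 * γ 1 1 - γ 0 1 * γ 1 0 = 1 := by
    have := γ.det_coe
    rwa [Matrix.det_fin_two] at this
  have hdet' : ((γ 0 0 : ℤ) : ZMod M) * ((γ 1 1 : ℤ) : ZMod M) = 1 := by
    have := congrArg (Int.cast : ℤ → ZMod M) hdet
    push_cast at this
    rw [h0, mul_zero, sub_zero] at this
    exact this
  rw [Matrix.trace_fin_two]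
  push_cast
  simp only [Fermat.Agent.S48.A.dd] at h1
  rcases h1 with h1 | h1
  · left
    rw [h1, mul_one] at hdet'
    rw [h1, hdet']
    norm_num
  · right
    rw [h1] at hdet'
    have : ((γ 0 0 : ℤ) : ZMod M) = -1 := by
      have h2 : ((γ 0 0 : ℤ) : ZMod M) = -(((γ 0 0 : ℤ) : ZMod M) * -1) := by ring
      rw [h2, hdet']
    rw [h1, this]
    norm_num

/-- for `4 ≤ M` the parabolic or elliptic elements of `±Γ₁(M)` have trace `±2`. -/
theorem trace_of_mem_H1 {M : ℕ} (hM : 4 ≤ M) {σ : SL(2, ℤ)}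
    (hσ : σ ∈ ({S, S * T, T} : Set SL(2, ℤ))) (k : ℕ) (g : SL(2, ℤ))
    (hmem : g⁻¹ * σ ^ k * g ∈ H1 M 1) :
    ((g⁻¹ * σ ^ k * g : SL(2, ℤ)) : Matrix (Fin 2) (Fin 2) ℤ).trace = 2 ∨
      ((g⁻¹ * σ ^ k * g : SL(2, ℤ)) : Matrix (Fin 2) (Fin 2) ℤ).trace = -2 := by
  have h1 := trace_cast_of_mem_H1 hmem
  have hne : ∀ t : ℤ, (t = 0 ∨ t = 1 ∨ t = -1) → ¬ ((t : ZMod M) = 2 ∨ (t : ZMod M) = -2) := by
    intro t ht h
    have h2 : (M : ℤ) ∣ t - 2 ∨ (M : ℤ) ∣ t + 2 := by
      rcases h with h | h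
      · left
        rw [← ZMod.intCast_zmod_eq_zero_iff_dvd]
        push_cast
        rw [h, sub_self]
      · right
        rw [← ZMod.intCast_zmod_eq_zero_iff_dvd]
        push_cast
        rw [h]
        ring
    have hM' : (4 : ℤ) ≤ M := by exact_mod_cast hM
    rcases h2 with ⟨c, hc⟩ | ⟨c, hc⟩ <;> rcases ht with rfl | rfl | rfl <;>
    · have hc0 : c ≠ 0 := by
        rintro rfl
        norm_num at hc
      rcases lt_or_gt_of_ne hc0 with hc1 | hc1 <;> nlinarith
  rw [trace_conj] at h1 ⊢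
  rcases hσ with rfl | rfl | hσ
  · rcases trace_S_pow k with h | h | h
    · exact Or.inl h
    · exact absurd h1 (hne _ (Or.inl h))
    · exact Or.inr h
  · rcases trace_ST_pow k with h | h | h | h
    · exact Or.inl h
    · exact absurd h1 (hne _ (Or.inr (Or.inl h)))
    · exact absurd h1 (hne _ (Or.inr (Or.inr h)))
    · exact Or.inr h
  · rw [Set.mem_singleton_iff] at hσ
    subst hσ
    left
    have := trace_conj_T_pow 1 k
    simpa using this

/-- an element of `homPE` kills `-1`. -/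
theorem apply_neg_one {H : Subgroup SL(2, ℤ)} {A : Type*} [AddCommGroup A] {ψ : Additive H →+ A}
    (hψ : ψ ∈ Top.homPE H A) (hH : (-1 : SL(2, ℤ)) ∈ H) :
    ψ (Additive.ofMul (⟨-1, hH⟩ : H)) = 0 := by
  rw [Top.mem_homPE] at hψ
  have hS : (1 : SL(2, ℤ))⁻¹ * S ^ 2 * 1 = -1 := by
    rw [inv_one, one_mul, mul_one]
    ext i j
    rw [Matrix.SpecialLinearGroup.coe_pow, coe_S]
    fin_cases i <;> fin_cases j <;> simp [pow_two]
  have hmem : (1 : SL(2, ℤ))⁻¹ * S ^ 2 * 1 ∈ H := hS ▸ hH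
  have := hψ S (by simp) 2 1 hmem
  rwa [show (⟨_, hmem⟩ : H) = ⟨-1, hH⟩ from Subtype.ext hS] at this

/-- an element of `homPE` kills the elements of trace `-2`. -/
theorem apply_eq_zero_of_trace_neg {H : Subgroup SL(2, ℤ)} {A : Type*} [AddCommGroup A]
    {ψ : Additive H →+ A} (hψ : ψ ∈ Top.homPE H A) (hH : (-1 : SL(2, ℤ)) ∈ H) (δ : H)
    (hδ : ((δ : SL(2, ℤ)) : Matrix (Fin 2) (Fin 2) ℤ).trace = -2) :
    ψ (Additive.ofMul δ) = 0 := by
  have h1 : δ = (⟨-1, hH⟩ : H) * ((⟨-1, hH⟩ : H) * δ) := by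
    apply Subtype.ext
    simp
  have h2 : ψ (Additive.ofMul ((⟨-1, hH⟩ : H) * δ)) = 0 := by
    refine apply_eq_zero_of_trace hψ _ ?_
    have : (((⟨-1, hH⟩ : H) * δ : H) : SL(2, ℤ)) = -(δ : SL(2, ℤ)) := by simp
    rw [this, Matrix.SpecialLinearGroup.coe_neg, Matrix.trace_neg, hδ]
    norm_num
  rw [h1, ofMul_mul, map_add, apply_neg_one hψ hH, h2, add_zero]

/-- **Hecke operators preserve `homPE (±Γ₁(M)) A`** for every abelian group `A`, if `4 ≤ M`. -/
theorem heckeHom_mem_homPE_gen {M : ℕ} (hM : 4 ≤ M) {ι : Type*} [Fintype ι]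
    {α : ι → GL (Fin 2) ℝ} (h : IsHeckeFamily (inclH (H1 M 1)) α) {A : Type*} [AddCommGroup A]
    {ψ : Additive (H1 M 1) →+ A} (hψ : ψ ∈ Top.homPE (H1 M 1) A) :
    h.heckeHom ψ ∈ Top.homPE (H1 M 1) A := by
  rw [Top.mem_homPE]
  intro σ hσ k g hmem
  have hconj : ∀ m : ℕ, (g⁻¹ * σ ^ k * g) ^ m = g⁻¹ * σ ^ (k * m) * g := by
    intro m
    have := conj_pow (a := g⁻¹) (b := σ ^ k) (i := m)
    rw [inv_inv] at this
    rw [this, pow_mul]
  refine heckeHom_apply_eq_zero h ψ _ fun i m δ _ hδ => ?_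
  rw [inclH_apply, inclH_apply] at hδ
  have h1 := trace_eq_of_conj hδ
  have hmem' : g⁻¹ * σ ^ (k * m) * g ∈ H1 M 1 := by
    rw [← hconj]
    exact Subgroup.pow_mem _ hmem m
  have h2 := trace_of_mem_H1 hM hσ (k * m) g hmem'
  rw [Subgroup.coe_pow] at h1
  simp only at h1
  rw [hconj] at h1
  rw [← h1] at h2
  rcases h2 with h2 | h2
  · exact apply_eq_zero_of_trace hψ δ h2
  · exact apply_eq_zero_of_trace_neg hψ neg_one_mem_H1 δ h2

/-- `T_p` preserves `homPE (±Γ₁(M)) A`. -/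
theorem TH_mem_homPE {M : ℕ} [NeZero M] (hM : 4 ≤ M) {p : ℕ} (hp : p.Prime) (hpM : ¬ p ∣ M)
    {A : Type*} [AddCommGroup A] {ψ : Additive (H1 M 1) →+ A}
    (hψ : ψ ∈ Top.homPE (H1 M 1) A) : TH M hp hpM ψ ∈ Top.homPE (H1 M 1) A :=
  haveI : NeZero p := ⟨hp.ne_zero⟩
  heckeHom_mem_homPE_gen hM (isHeckeFamily_T1 M hp hpM) hψ

/-- `⟨d⟩` preserves `homPE (±Γ₁(M)) A`. -/
theorem DH_mem_homPE {M : ℕ} [NeZero M] (hM : 4 ≤ M) (d : ZMod M)
    {A : Type*} [AddCommGroup A] {ψ : Additive (H1 M 1) →+ A}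
    (hψ : ψ ∈ Top.homPE (H1 M 1) A) : DH M d ψ ∈ Top.homPE (H1 M 1) A :=
  heckeHom_mem_homPE_gen hM (isHeckeFamily_D M d) hψ

end Fermat.Agent.S48.BB.H.ParGen
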