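/-
S48 (Deligne-Serre), block BB, sub-block H (Hecke operators for `Γ₁(M)`).  Owner: helper166.
The diamond operators and the Hecke operators `T_p` (`p ∤ M`) as `ℂ`-linear endomorphisms of
`CuspForm (Gamma1 M) k`; behaviour on forms with nebentypus; `q`-expansions.
-/
import Fermat.Agent.S48.BB.H.Rep
import Fermat.Agent.S48.BB.H.Fam
import Fermat.Agent.S48.A.FunId
import Fermat.Prelude.Thm_CuspFormClass_isZeroAt_heckeT
import Fermat.Prelude.Thm_CuspFormClass_isZeroAt_heckeU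

set_option autoImplicit false

namespace Fermat.Agent.S48.BB.H

open CongruenceSubgroup UpperHalfPlane ModularForm Matrix.SpecialLinearGroup
open scoped MatrixGroups ModularForm OnePoint
open P2MW.S_ModularForm_heckeT_slash_eq_self_of_mem_Gamma0.ModularForm.HeckeSlashInvariance
open Fermat.Agent.S48.A

/-! ### The operator `T_p` on functions -/

/-- `T_p f = ∑_x f ∣ rep1 x`. -/
noncomputable def T1fun (k : ℤ) (p : ℕ) [NeZero p] (σ : SL(2, ℤ)) (f : ℍ → ℂ) : ℍ → ℂ :=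
  ∑ x : OnePoint (ZMod p), f ∣[k] rep1 p σ x

theorem T1fun_eq (k : ℤ) (p : ℕ) [NeZero p] (σ : SL(2, ℤ)) (f : ℍ → ℂ) :
    T1fun k p σ f = heckeU k p f + (f ∣[k] σ) ∣[k] heckeDiagMatrix p := by
  rw [heckeU_eq_sum_zmod, add_comm, T1fun]
  refine Eq.trans (Fintype.sum_option (fun x : OnePoint (ZMod p) ↦ f ∣[k] rep1 p σ x)) ?_
  congr 1
  · show f ∣[k] rep1 p σ ∞ = _
    rw [rep1_infty, SlashAction.slash_mul]
    rfl
  · refine Finset.sum_congr rfl fun j _ => ?_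
    show f ∣[k] rep1 p σ (j : OnePoint (ZMod p)) = _
    rw [rep1_coe]

theorem σ_rep1 (p : ℕ) (σ : SL(2, ℤ)) (x : OnePoint (ZMod p)) :
    UpperHalfPlane.σ (rep1 p σ x) = .refl ℝ ℂ := by
  rw [UpperHalfPlane.σ, if_pos (det_rep1_pos p σ x)]

theorem T1fun_add (k : ℤ) (p : ℕ) [NeZero p] (σ : SL(2, ℤ)) (f g : ℍ → ℂ) :
    T1fun k p σ (f + g) = T1fun k p σ f + T1fun k p σ g := by
  simp only [T1fun, SlashAction.add_slash, Finset.sum_add_distrib]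

theorem T1fun_smul (k : ℤ) (p : ℕ) [NeZero p] (σ : SL(2, ℤ)) (c : ℂ) (f : ℍ → ℂ) :
    T1fun k p σ (c • f) = c • T1fun k p σ f := by
  simp only [T1fun, ModularForm.smul_slash, σ_rep1, ContinuousAlgEquiv.refl_apply,
    Finset.smul_sum]

/-- `T_p` commutes with the diamond action of `Γ₀(M)` on `Γ₁(M)`-invariant functions. -/
theorem T1fun_slash {M : ℕ} (k : ℤ) {p : ℕ} [Fact p.Prime] (hpM : ¬ p ∣ M) {σ : SL(2, ℤ)}
    (hσ : σ ∈ Gamma0 M) (hσp : dd M σ = (p : ZMod M)) {f : ℍ → ℂ} (hf : Inv1 M k f)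
    {γ : SL(2, ℤ)} (hγ : γ ∈ Gamma0 M) :
    (T1fun k p σ f) ∣[k] γ = T1fun k p σ (f ∣[k] γ) := by
  rw [T1fun, T1fun, ModularForm.SL_slash, SlashAction.sum_slash]
  calc ∑ x : OnePoint (ZMod p), (f ∣[k] rep1 p σ x) ∣[k] (mapGL ℝ γ)
      = ∑ x : OnePoint (ZMod p), (f ∣[k] γ) ∣[k] rep1 p σ (redMatrix p γ • x) := by
        refine Finset.sum_congr rfl fun x _ => ?_
        obtain ⟨g', hg', hd, hmul⟩ := rep1_mul hpM hσ hσp hγ x
        rw [← SlashAction.slash_mul, hmul, SlashAction.slash_mul]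
        congr 1
        exact hf.slash_eq hg' hγ hd
    _ = ∑ x : OnePoint (ZMod p), (f ∣[k] γ) ∣[k] rep1 p σ x :=
        Equiv.sum_comp (MulAction.toPerm (redMatrix p γ))
          (fun x ↦ (f ∣[k] γ) ∣[k] rep1 p σ x)

theorem inv1_T1fun {M : ℕ} (k : ℤ) {p : ℕ} [Fact p.Prime] (hpM : ¬ p ∣ M) {σ : SL(2, ℤ)}
    (hσ : σ ∈ Gamma0 M) (hσp : dd M σ = (p : ZMod M)) {f : ℍ → ℂ} (hf : Inv1 M k f) :
    Inv1 M k (T1fun k p σ f) := by
  intro γ hγ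
  rw [T1fun_slash k hpM hσ hσp hf (Gamma1_in_Gamma0 M hγ), hf γ hγ]

/-- `T_p` does not depend on the choice of `σ`. -/
theorem T1fun_congr {M : ℕ} (k : ℤ) (p : ℕ) [NeZero p] {σ σ' : SL(2, ℤ)} (hσ : σ ∈ Gamma0 M)
    (hσ' : σ' ∈ Gamma0 M) (h : dd M σ = dd M σ') {f : ℍ → ℂ} (hf : Inv1 M k f) :
    T1fun k p σ f = T1fun k p σ' f := by
  rw [T1fun_eq, T1fun_eq, hf.slash_eq hσ hσ' h]

/-! ### Vanishing at the cusps -/

theorem isZeroAt_neg {c : OnePoint ℝ} {f : ℍ → ℂ} {k : ℤ} (hf : c.IsZeroAt f k) :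
    c.IsZeroAt (-f) k := by
  intro g hg
  rw [SlashAction.neg_slash]
  exact (hf g hg).neg

theorem isCusp_smul_Gamma1 {M : ℕ} [NeZero M] {c : OnePoint ℝ}
    (hc : IsCusp c (Gamma1 M : Subgroup (GL (Fin 2) ℝ))) (σ : SL(2, ℤ)) :
    IsCusp (mapGL ℝ σ • c) (Gamma1 M : Subgroup (GL (Fin 2) ℝ)) := by
  rw [Subgroup.IsArithmetic.isCusp_iff_isCusp_SL2Z] at hc ⊢
  exact hc.smul_of_mem ⟨σ, rfl⟩

/-! ### The diamond operators -/

/-- The diamond operator attached to `σ ∈ Γ₀(M)`: `f ↦ f ∣ σ`. -/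
noncomputable def diaLin {M : ℕ} [NeZero M] (k : ℤ) (σ : SL(2, ℤ)) (hσ : σ ∈ Gamma0 M) :
    CuspForm (Gamma1 M) k →ₗ[ℂ] CuspForm (Gamma1 M) k where
  toFun f :=
    { toFun := (f : ℍ → ℂ) ∣[k] σ
      slash_action_eq' := by
        rintro _ ⟨γ, hγ, rfl⟩
        exact ((inv1_coe f).slash hσ) γ hγ
      holo' := (CuspFormClass.holo f).slash k _
      zero_at_cusps' := fun hc =>
        OnePoint.IsZeroAt.smul_iff.mp (CuspFormClass.zero_at_cusps f (isCusp_smul_Gamma1 hc σ)) }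
  map_add' f g := DFunLike.coe_injective <|
    show (⇑(f + g) : ℍ → ℂ) ∣[k] σ = (f : ℍ → ℂ) ∣[k] σ + (g : ℍ → ℂ) ∣[k] σ by
      rw [FunLike.coe_add, SlashAction.add_slash]
  map_smul' c f := DFunLike.coe_injective <|
    show (⇑(c • f) : ℍ → ℂ) ∣[k] σ = c • ((f : ℍ → ℂ) ∣[k] σ) by
      rw [FunLike.coe_smul, ModularForm.SL_smul_slash]

@[simp] theorem coe_diaLin_apply {M : ℕ} [NeZero M] (k : ℤ) (σ : SL(2, ℤ)) (hσ : σ ∈ Gamma0 M)
    (f : CuspForm (Gamma1 M) k) : ⇑(diaLin k σ hσ f) = (f : ℍ → ℂ) ∣[k] σ := rfl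

/-! ### The Hecke operators -/

theorem isZeroAt_T1fun {M : ℕ} [NeZero M] (k : ℤ) (p : ℕ) [NeZero p] {σ : SL(2, ℤ)}
    (hσ : σ ∈ Gamma0 M) (f : CuspForm (Gamma1 M) k) {c : OnePoint ℝ}
    (hc : IsCusp c (Gamma1 M : Subgroup (GL (Fin 2) ℝ))) :
    c.IsZeroAt (T1fun k p σ (f : ℍ → ℂ)) k := by
  have e : T1fun k p σ (f : ℍ → ℂ) = heckeU k p (f : ℍ → ℂ)
      + (heckeT k p ⇑(diaLin k σ hσ f) + -heckeU k p ⇑(diaLin k σ hσ f)) := by
    rw [T1fun_eq, heckeT_eq_heckeU_add, coe_diaLin_apply]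
    abel
  rw [e]
  exact (CuspFormClass.isZeroAt_heckeU f p hc).add
    ((CuspFormClass.isZeroAt_heckeT (diaLin k σ hσ f) p hc).add
      (isZeroAt_neg (CuspFormClass.isZeroAt_heckeU (diaLin k σ hσ f) p hc)))

theorem mdiff_T1fun (k : ℤ) (p : ℕ) [NeZero p] (σ : SL(2, ℤ)) {f : ℍ → ℂ}
    (hf : MDifferentiable (modelWithCornersSelf ℂ ℂ) (modelWithCornersSelf ℂ ℂ) f) :
    MDifferentiable (modelWithCornersSelf ℂ ℂ) (modelWithCornersSelf ℂ ℂ) (T1fun k p σ f) := by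
  rw [T1fun_eq]
  exact (mdifferentiable_heckeU hf k p).add ((hf.slash k _).slash k _)

/-- The Hecke operator `T_p` on `S_k(Γ₁(M))`, `p ∤ M`, defined with `σ ∈ Γ₀(M)` of lower right
entry `p` modulo `M`. -/
noncomputable def heckeT1Lin {M : ℕ} [NeZero M] (k : ℤ) {p : ℕ} (hp : p.Prime) (hpM : ¬ p ∣ M)
    (σ : SL(2, ℤ)) (hσ : σ ∈ Gamma0 M) (hσp : dd M σ = (p : ZMod M)) :
    CuspForm (Gamma1 M) k →ₗ[ℂ] CuspForm (Gamma1 M) k :=
  haveI : Fact p.Prime := ⟨hp⟩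
  haveI : NeZero p := ⟨hp.ne_zero⟩
  { toFun := fun f =>
      { toFun := T1fun k p σ (f : ℍ → ℂ)
        slash_action_eq' := by
          rintro _ ⟨γ, hγ, rfl⟩
          exact inv1_T1fun k hpM hσ hσp (inv1_coe f) γ hγ
        holo' := mdiff_T1fun k p σ (CuspFormClass.holo f)
        zero_at_cusps' := fun hc => isZeroAt_T1fun k p hσ f hc }
    map_add' := fun f g => DFunLike.coe_injective <|
      show T1fun k p σ ⇑(f + g) = T1fun k p σ ⇑f + T1fun k p σ ⇑g by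
        rw [FunLike.coe_add, T1fun_add]
    map_smul' := fun c f => DFunLike.coe_injective <|
      show T1fun k p σ ⇑(c • f) = c • T1fun k p σ ⇑f by
        rw [FunLike.coe_smul, T1fun_smul] }

theorem coe_heckeT1Lin_eq_sum {M : ℕ} [NeZero M] (k : ℤ) {p : ℕ} [NeZero p] (hp : p.Prime)
    (hpM : ¬ p ∣ M) (σ : SL(2, ℤ)) (hσ : σ ∈ Gamma0 M) (hσp : dd M σ = (p : ZMod M))
    (f : CuspForm (Gamma1 M) k) :
    ⇑(heckeT1Lin k hp hpM σ hσ hσp f) = ∑ x : OnePoint (ZMod p), (f : ℍ → ℂ) ∣[k] rep1 p σ x :=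
  rfl

theorem coe_heckeT1Lin_apply {M : ℕ} [NeZero M] (k : ℤ) {p : ℕ} (hp : p.Prime)
    (hpM : ¬ p ∣ M) (σ : SL(2, ℤ)) (hσ : σ ∈ Gamma0 M) (hσp : dd M σ = (p : ZMod M))
    (f : CuspForm (Gamma1 M) k) :
    ⇑(heckeT1Lin k hp hpM σ hσ hσp f)
      = heckeU k p (f : ℍ → ℂ) + ((f : ℍ → ℂ) ∣[k] σ) ∣[k] heckeDiagMatrix p :=
  haveI : NeZero p := ⟨hp.ne_zero⟩
  T1fun_eq k p σ f

/-- `T_p` commutes with the diamond operators. -/
theorem heckeT1Lin_diaLin {M : ℕ} [NeZero M] (k : ℤ) {p : ℕ} (hp : p.Prime)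
    (hpM : ¬ p ∣ M) (σ : SL(2, ℤ)) (hσ : σ ∈ Gamma0 M) (hσp : dd M σ = (p : ZMod M))
    (γ : SL(2, ℤ)) (hγ : γ ∈ Gamma0 M) (f : CuspForm (Gamma1 M) k) :
    heckeT1Lin k hp hpM σ hσ hσp (diaLin k γ hγ f)
      = diaLin k γ hγ (heckeT1Lin k hp hpM σ hσ hσp f) :=
  haveI : Fact p.Prime := ⟨hp⟩
  DFunLike.coe_injective (T1fun_slash k hpM hσ hσp (inv1_coe f) hγ).symm

/-! ### Nebentypus -/

/-- `h` has nebentypus `χ` (in the form used in `ResidualWeightTwo`). -/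
def HasNeb (M : ℕ) (k : ℤ) (χ : DirichletCharacter ℂ M) (h : ℍ → ℂ) : Prop :=
  ∀ γ : SL(2, ℤ), γ ∈ Gamma0 M → h ∣[k] γ = χ ((γ 1 1 : ℤ) : ZMod M) • h

theorem diaLin_of_hasNeb {M : ℕ} [NeZero M] {k : ℤ} {χ : DirichletCharacter ℂ M}
    {h : CuspForm (Gamma1 M) k} (hh : HasNeb M k χ h) (σ : SL(2, ℤ)) (hσ : σ ∈ Gamma0 M) :
    diaLin k σ hσ h = χ (dd M σ) • h :=
  DFunLike.coe_injective (hh σ hσ)

theorem hasNeb_smul {M : ℕ} {k : ℤ} {χ : DirichletCharacter ℂ M} {h : ℍ → ℂ}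
    (hh : HasNeb M k χ h) (c : ℂ) : HasNeb M k χ (c • h) := by
  intro γ hγ
  rw [ModularForm.SL_smul_slash, hh γ hγ, smul_comm]

theorem hasNeb_add {M : ℕ} {k : ℤ} {χ : DirichletCharacter ℂ M} {h h' : ℍ → ℂ}
    (hh : HasNeb M k χ h) (hh' : HasNeb M k χ h') : HasNeb M k χ (h + h') := by
  intro γ hγ
  rw [SlashAction.add_slash, hh γ hγ, hh' γ hγ, smul_add]

theorem hasNeb_diaLin {M : ℕ} [NeZero M] {k : ℤ} {χ : DirichletCharacter ℂ M}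
    {h : CuspForm (Gamma1 M) k} (hh : HasNeb M k χ h) (σ : SL(2, ℤ)) (hσ : σ ∈ Gamma0 M) :
    HasNeb M k χ (diaLin k σ hσ h) := by
  rw [diaLin_of_hasNeb hh, FunLike.coe_smul]
  exact hasNeb_smul hh _

/-- `T_p` preserves the nebentypus. -/
theorem hasNeb_heckeT1Lin {M : ℕ} [NeZero M] {k : ℤ} {χ : DirichletCharacter ℂ M}
    {h : CuspForm (Gamma1 M) k} (hh : HasNeb M k χ h) {p : ℕ} (hp : p.Prime)
    (hpM : ¬ p ∣ M) (σ : SL(2, ℤ)) (hσ : σ ∈ Gamma0 M) (hσp : dd M σ = (p : ZMod M)) :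
    HasNeb M k χ (heckeT1Lin k hp hpM σ hσ hσp h) := by
  intro γ hγ
  rw [← coe_diaLin_apply k γ hγ, ← heckeT1Lin_diaLin, diaLin_of_hasNeb hh, map_smul,
    FunLike.coe_smul]
  rfl

/-- The `q`-expansion of `T_p h` for `h` of nebentypus `χ`. -/
theorem qCoeff_heckeT1Lin {M : ℕ} [NeZero M] {k : ℤ} {χ : DirichletCharacter ℂ M}
    {h : CuspForm (Gamma1 M) k} (hh : HasNeb M k χ h) {p : ℕ} (hp : p.Prime)
    (hpM : ¬ p ∣ M) (σ : SL(2, ℤ)) (hσ : σ ∈ Gamma0 M) (hσp : dd M σ = (p : ZMod M)) (n : ℕ) :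
    ModularFormClass.qCoeff (heckeT1Lin k hp hpM σ hσ hσp h) n
      = ModularFormClass.qCoeff h (p * n) + χ (p : ZMod M) * (p : ℂ) ^ (k - 1) *
        (if p ∣ n then ModularFormClass.qCoeff h (n / p) else 0) := by
  have hf : Nice (h : ℍ → ℂ) := nice_coe h
  have hU := hf.heckeU k p
  have hTT := hf.heckeT k p
  have e1 : ⇑(heckeT1Lin k hp hpM σ hσ hσp h)
      = (1 - χ (p : ZMod M)) • heckeU k p (h : ℍ → ℂ)
        + χ (p : ZMod M) • heckeT k p (h : ℍ → ℂ) := by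
    have h1 : (h : ℍ → ℂ) ∣[k] σ = χ (p : ZMod M) • (h : ℍ → ℂ) := by
      rw [hh σ hσ, ← hσp]
      rfl
    rw [coe_heckeT1Lin_apply, h1, ModularForm.smul_slash, σ_heckeDiagMatrix,
      heckeT_eq_heckeU_add, smul_add, sub_smul, one_smul]
    simp only [ContinuousAlgEquiv.refl_apply]
    abel
  rw [e1, (hU.smul _).qCoeff_add (hTT.smul _), hU.qCoeff_smul, hTT.qCoeff_smul,
    UpperHalfPlane.qCoeff_heckeU hf.per hf.hol hf.bdd k hp.ne_zero,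
    UpperHalfPlane.qCoeff_heckeT hf.per hf.hol hf.bdd k hp.ne_zero,
    coeffHeckeU_apply, coeffHeckeT_apply, mul_comm n p]
  split_ifs <;> ring

/-! ### The canonical operators -/

/-- The diamond operator `⟨d⟩` (the identity if `d` is not a unit). -/
noncomputable def DLin (M : ℕ) [NeZero M] (k : ℤ) (d : ZMod M) :
    CuspForm (Gamma1 M) k →ₗ[ℂ] CuspForm (Gamma1 M) k :=
  diaLin k (sig M d) (sig_mem M d)

theorem dd_sig_prime {M : ℕ} [NeZero M] {p : ℕ} (hp : p.Prime) (hpM : ¬ p ∣ M) :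
    dd M (sig M (p : ZMod M)) = (p : ZMod M) :=
  dd_sig (isUnit_natCast_of_prime M hp hpM)

/-- The Hecke operator `T_p`, `p ∤ M`. -/
noncomputable def TLin (M : ℕ) [NeZero M] (k : ℤ) {p : ℕ} (hp : p.Prime) (hpM : ¬ p ∣ M) :
    CuspForm (Gamma1 M) k →ₗ[ℂ] CuspForm (Gamma1 M) k :=
  heckeT1Lin k hp hpM (sig M (p : ZMod M)) (sig_mem M _) (dd_sig_prime hp hpM)

theorem coe_DLin_apply {M : ℕ} [NeZero M] (k : ℤ) (d : ZMod M) (f : CuspForm (Gamma1 M) k) :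
    ⇑(DLin M k d f) = (f : ℍ → ℂ) ∣[k] sig M d := rfl

theorem coe_DLin_eq_sum {M : ℕ} [NeZero M] (k : ℤ) (d : ZMod M) (f : CuspForm (Gamma1 M) k) :
    ⇑(DLin M k d f) = ∑ u : Unit, (f : ℍ → ℂ) ∣[k] repD M d u := by
  rw [Finset.univ_unique, Finset.sum_singleton]
  rfl

theorem coe_TLin_eq_sum {M : ℕ} [NeZero M] (k : ℤ) {p : ℕ} [NeZero p] (hp : p.Prime)
    (hpM : ¬ p ∣ M) (f : CuspForm (Gamma1 M) k) :
    ⇑(TLin M k hp hpM f) = ∑ x : OnePoint (ZMod p), (f : ℍ → ℂ) ∣[k] repT1 M p x := rfl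

/-- `⟨d⟩ f = f ∣ σ` for every `σ ∈ Γ₀(M)` with lower right entry `d`. -/
theorem coe_DLin_eq {M : ℕ} [NeZero M] (k : ℤ) {d : ZMod M} (f : CuspForm (Gamma1 M) k)
    {σ : SL(2, ℤ)} (hσ : σ ∈ Gamma0 M) (hd : dd M σ = d) :
    ⇑(DLin M k d f) = (f : ℍ → ℂ) ∣[k] σ :=
  (inv1_coe f).slash_eq (sig_mem M d) hσ
    ((dd_sig (hd ▸ isUnit_dd hσ)).trans hd.symm)

theorem DLin_one {M : ℕ} [NeZero M] (k : ℤ) (f : CuspForm (Gamma1 M) k) : DLin M k 1 f = f :=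
  DFunLike.coe_injective <| by
    rw [coe_DLin_eq k f (Subgroup.one_mem _) dd_one, SlashAction.slash_one]

theorem DLin_mul {M : ℕ} [NeZero M] (k : ℤ) {d d' : ZMod M} (hd : IsUnit d) (hd' : IsUnit d')
    (f : CuspForm (Gamma1 M) k) :
    DLin M k (d * d') f = DLin M k d' (DLin M k d f) :=
  DFunLike.coe_injective <| by
    rw [coe_DLin_apply k d', coe_DLin_apply k d, ← SlashAction.slash_mul]
    exact coe_DLin_eq k f (Subgroup.mul_mem _ (sig_mem M d) (sig_mem M d'))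
      (by rw [dd_mul (sig_mem M d), dd_sig hd, dd_sig hd'])

theorem TLin_DLin {M : ℕ} [NeZero M] (k : ℤ) {p : ℕ} (hp : p.Prime) (hpM : ¬ p ∣ M)
    (d : ZMod M) (f : CuspForm (Gamma1 M) k) :
    TLin M k hp hpM (DLin M k d f) = DLin M k d (TLin M k hp hpM f) :=
  heckeT1Lin_diaLin k hp hpM _ _ _ _ _ f

theorem DLin_of_hasNeb {M : ℕ} [NeZero M] {k : ℤ} {χ : DirichletCharacter ℂ M}
    {h : CuspForm (Gamma1 M) k} (hh : HasNeb M k χ h) {d : ZMod M} (hd : IsUnit d) :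
    DLin M k d h = χ d • h := by
  rw [DLin, diaLin_of_hasNeb hh, dd_sig hd]

theorem hasNeb_DLin {M : ℕ} [NeZero M] {k : ℤ} {χ : DirichletCharacter ℂ M}
    {h : CuspForm (Gamma1 M) k} (hh : HasNeb M k χ h) (d : ZMod M) :
    HasNeb M k χ (DLin M k d h) := hasNeb_diaLin hh _ _

theorem hasNeb_TLin {M : ℕ} [NeZero M] {k : ℤ} {χ : DirichletCharacter ℂ M}
    {h : CuspForm (Gamma1 M) k} (hh : HasNeb M k χ h) {p : ℕ} (hp : p.Prime) (hpM : ¬ p ∣ M) :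
    HasNeb M k χ (TLin M k hp hpM h) := hasNeb_heckeT1Lin hh hp hpM _ _ _

/-- Weight two: `a_n(T_p h) = a_{pn}(h) + χ(p) p a_{n/p}(h)`. -/
theorem qCoeff_TLin_two {M : ℕ} [NeZero M] {χ : DirichletCharacter ℂ M}
    {h : CuspForm (Gamma1 M) 2} (hh : HasNeb M 2 χ h) {p : ℕ} (hp : p.Prime) (hpM : ¬ p ∣ M)
    (n : ℕ) :
    ModularFormClass.qCoeff (TLin M 2 hp hpM h) n
      = ModularFormClass.qCoeff h (p * n) + χ (p : ZMod M) * (p : ℂ) *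
        (if p ∣ n then ModularFormClass.qCoeff h (n / p) else 0) := by
  rw [TLin, qCoeff_heckeT1Lin hh]
  norm_num

end Fermat.Agent.S48.BB.H
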