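/-
S48 (Deligne-Serre), block BB, sub-block H.  Owner: helper166.
The period map `per : S₂(Γ₁(M)) → Hom(±Γ₁(M), ℂ)`, `per f γ = F(γ z) - F(z)` for a primitive `F`
of `f`: definition, additivity, computation with an arbitrary primitive, limits at the cusps.
-/
import Fermat.Agent.S48.BB.H.Forms
import Fermat.Agent.S21.Primitive

set_option autoImplicit false

namespace Fermat.Agent.S48.BB.H

open CongruenceSubgroup UpperHalfPlane ModularForm Matrix.SpecialLinearGroup Filter Topology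
open ModularCurve.Period
open scoped MatrixGroups ModularForm OnePoint Manifold Pointwise
open Fermat.Agent.S48.A Fermat.Agent.S21

/-- `-1` acts trivially in weight two. -/
theorem slash_two_neg_one (f : ℍ → ℂ) : f ∣[(2 : ℤ)] (-1 : SL(2, ℤ)) = f := by
  funext τ
  rw [ModularForm.SL_slash_apply]
  have h1 : (-1 : SL(2, ℤ)) • τ = τ := by
    simp
  have h2 : denom ((-1 : SL(2, ℤ)) : GL (Fin 2) ℝ) τ = -1 := by
    simp [denom]
  rw [h1, h2]
  norm_num

variable {M : ℕ}

/-- Weight two forms on `Γ₁(M)` are invariant under `±Γ₁(M)`. -/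
theorem slash_of_mem_H1 (f : CuspForm (Gamma1 M) 2) {γ : SL(2, ℤ)} (hγ : γ ∈ H1 M 1) :
    (f : ℍ → ℂ) ∣[(2 : ℤ)] γ = f := by
  obtain ⟨h0, h1 | h1⟩ := mem_H1_one_iff.mp hγ
  · exact inv1_coe f γ (mem_Gamma1_iff.mpr ⟨h0, h1⟩)
  · have h2 : (-1) * γ ∈ Gamma1 M := by
      rw [mem_Gamma1_iff]
      refine ⟨Subgroup.mul_mem _ neg_one_mem_Gamma0 h0, ?_⟩
      rw [dd_mul neg_one_mem_Gamma0, h1, dd_neg_one]
      simp
    have h3 := inv1_coe f _ h2
    rwa [SlashAction.slash_mul, slash_two_neg_one] at h3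

/-- `F` is a primitive of `f`. -/
def IsPrim (f F : ℍ → ℂ) : Prop := ∀ τ : ℍ, HasDerivAt (F ∘ ofComplex) (f τ) ↑τ

theorem IsPrim.sub_const {f F G : ℍ → ℂ} (hF : IsPrim f F) (hG : IsPrim f G) (z w : ℍ) :
    F z - G z = F w - G w := by
  have hH : ∀ τ : ℍ, HasDerivAt ((fun w : ℍ => F w - G w) ∘ ofComplex) 0 τ := by
    intro τ
    have := (hF τ).sub (hG τ)
    rw [sub_self] at this
    exact this
  exact eq_of_hasDerivAt_zero hH z w

theorem IsPrim.add {f g F G : ℍ → ℂ} (hF : IsPrim f F) (hG : IsPrim g G) :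
    IsPrim (f + g) (F + G) := fun τ => (hF τ).add (hG τ)

theorem IsPrim.mdiff {f F : ℍ → ℂ} (hF : IsPrim f F) : MDiff F :=
  fun τ => UpperHalfPlane.mdifferentiableAt_iff.mpr (hF τ).differentiableAt

theorem IsPrim.eq_zero_of_const {f F : ℍ → ℂ} (hF : IsPrim f F) {c : ℂ} (hc : ∀ z, F z = c) :
    f = 0 := by
  funext τ
  have h1 := hF τ
  have h2 : (F ∘ ofComplex) = fun _ => c := by
    funext z; exact hc _
  rw [h2] at h1
  exact h1.unique (hasDerivAt_const _ _)

/-- A primitive of `f` composed with `δ` is a primitive of `f ∣ δ`. -/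
theorem IsPrim.comp_smul {f F : ℍ → ℂ} (hF : IsPrim f F) (δ : SL(2, ℤ)) :
    IsPrim (f ∣[(2 : ℤ)] δ) (fun w => F (δ • w)) := fun τ => hasDerivAt_comp_smul hF δ τ

variable [NeZero M]

/-- For every `δ ∈ SL₂(ℤ)`, `f ∣ δ` has a primitive tending to `0` at `i∞`. -/
theorem exists_prim_slash (f : CuspForm (Gamma1 M) 2) (δ : SL(2, ℤ)) :
    ∃ G : ℍ → ℂ, IsPrim ((f : ℍ → ℂ) ∣[(2 : ℤ)] δ) G ∧ Tendsto G atImInfty (𝓝 0) := by
  obtain ⟨m, hm, hmper⟩ := Subgroup.IsArithmetic.exists_nat_mem_strictPeriods_conj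
    (Gamma1 M : Subgroup (GL (Fin 2) ℝ))
  have hperδ : Function.Periodic (((f : ℍ → ℂ) ∣[(2 : ℤ)] δ) ∘ ofComplex) m := by
    have hmem : (m : ℝ) ∈ (ConjAct.toConjAct (Matrix.SpecialLinearGroup.mapGL ℝ δ)⁻¹ •
        (Gamma1 M : Subgroup (GL (Fin 2) ℝ))).strictPeriods := by
      have := hmper δ⁻¹
      rwa [map_inv] at this
    exact SlashInvariantFormClass.periodic_comp_ofComplex
      (CuspForm.translate f (Matrix.SpecialLinearGroup.mapGL ℝ δ)) (h := m) hmem
  exact exists_primitive_of_periodic (by exact_mod_cast hm) hperδ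
    ((CuspFormClass.holo f).slash 2 δ) (CuspFormClass.zero_at_infty_slash f δ)

theorem exists_prim (f : CuspForm (Gamma1 M) 2) : ∃ F : ℍ → ℂ, IsPrim (f : ℍ → ℂ) F := by
  obtain ⟨G, hG, -⟩ := exists_prim_slash f 1
  rw [SlashAction.slash_one] at hG
  exact ⟨G, hG⟩

/-- A chosen primitive of `f`. -/
noncomputable def prim (f : CuspForm (Gamma1 M) 2) : ℍ → ℂ := (exists_prim f).choose

theorem isPrim_prim (f : CuspForm (Gamma1 M) 2) : IsPrim (f : ℍ → ℂ) (prim f) :=
  (exists_prim f).choose_spec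

/-- Every primitive of `f` has a limit at every cusp. -/
theorem IsPrim.exists_lim {f : CuspForm (Gamma1 M) 2} {F : ℍ → ℂ} (hF : IsPrim (f : ℍ → ℂ) F)
    (δ : SL(2, ℤ)) : ∃ L : ℂ, Tendsto (fun w : ℍ => F (δ • w)) atImInfty (𝓝 L) := by
  obtain ⟨G, hG, hG0⟩ := exists_prim_slash f δ
  refine ⟨F (δ • I) - G I, ?_⟩
  have heq : (fun w : ℍ => F (δ • w)) = fun w => G w + (F (δ • I) - G I) := by
    funext w
    have := (hF.comp_smul δ).sub_const hG w I
    linear_combination this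
  rw [heq]
  simpa using hG0.add_const (F (δ • I) - G I)

/-- Every primitive of `f` is equivariant for `±Γ₁(M)`. -/
theorem IsPrim.isEquivariantPrimitive {f : CuspForm (Gamma1 M) 2} {F : ℍ → ℂ}
    (hF : IsPrim (f : ℍ → ℂ) F) : IsEquivariantPrimitive (H1 M 1) F := by
  intro γ
  refine ⟨F ((γ : SL(2, ℤ)) • I) - F I, fun z => ?_⟩
  have h1 := hF.comp_smul (γ : SL(2, ℤ))
  rw [slash_of_mem_H1 f γ.2] at h1
  exact h1.sub_const hF z I

/-- The periods of `f`. -/
noncomputable def perHom (f : CuspForm (Gamma1 M) 2) : Additive (H1 M 1) →+ ℂ :=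
  (isPrim_prim f).isEquivariantPrimitive.periodHom

/-- The periods can be computed with any primitive and any base point. -/
theorem perHom_apply {f : CuspForm (Gamma1 M) 2} {F : ℍ → ℂ} (hF : IsPrim (f : ℍ → ℂ) F)
    (γ : H1 M 1) (z : ℍ) :
    perHom f (Additive.ofMul γ) = F ((γ : SL(2, ℤ)) • z) - F z := by
  rw [perHom, IsEquivariantPrimitive.periodHom_apply,
    ← (isPrim_prim f).isEquivariantPrimitive.sub_eq_period γ z]
  have h1 := (isPrim_prim f).sub_const hF ((γ : SL(2, ℤ)) • z) z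
  linear_combination h1

variable (M) in
/-- **The period map.** -/
noncomputable def per : CuspForm (Gamma1 M) 2 →+ (Additive (H1 M 1) →+ ℂ) where
  toFun := perHom
  map_zero' := by
    refine AddMonoidHom.ext fun γ => ?_
    obtain ⟨γ, rfl⟩ := Additive.ofMul.surjective γ
    have h0 : IsPrim ((0 : CuspForm (Gamma1 M) 2) : ℍ → ℂ) (fun _ => 0) := fun τ => by
      have : ((fun _ : ℍ => (0 : ℂ)) ∘ ofComplex) = fun _ => (0 : ℂ) := rfl
      rw [this]
      exact hasDerivAt_const _ _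
    rw [perHom_apply h0 γ I]
    simp
  map_add' f g := by
    refine AddMonoidHom.ext fun γ => ?_
    obtain ⟨γ, rfl⟩ := Additive.ofMul.surjective γ
    have h1 : IsPrim ((f + g : CuspForm (Gamma1 M) 2) : ℍ → ℂ) (prim f + prim g) := by
      rw [FunLike.coe_add]
      exact (isPrim_prim f).add (isPrim_prim g)
    rw [AddMonoidHom.add_apply, perHom_apply h1 γ I, perHom_apply (isPrim_prim f) γ I,
      perHom_apply (isPrim_prim g) γ I]
    simp only [Pi.add_apply]
    ring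

theorem per_apply {f : CuspForm (Gamma1 M) 2} {F : ℍ → ℂ} (hF : IsPrim (f : ℍ → ℂ) F)
    (γ : H1 M 1) (z : ℍ) :
    per M f (Additive.ofMul γ) = F ((γ : SL(2, ℤ)) • z) - F z := perHom_apply hF γ z

end Fermat.Agent.S48.BB.H
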