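/-
S48 (Deligne-Serre), block BB, sub-block H.  Owner: helper166.
Properties of the period map `per : S₂(Γ₁(M)) → Hom(±Γ₁(M), ℂ)`: injectivity, vanishing on
parabolic and elliptic elements, equivariance for Hecke families.
-/
import Fermat.Agent.S48.BB.H.Per
import Fermat.Agent.S48.BB.Top.Contract
import Fermat.Agent.S21.MaxPrinciple
import Fermat.Agent.S21.Parabolic
import Fermat.Agent.Lib.HeckeHom.Period

set_option autoImplicit false

namespace Fermat.Agent.S48.BB.H

open CongruenceSubgroup UpperHalfPlane ModularForm Matrix.SpecialLinearGroup Filter Topology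
open ModularCurve.Period ModularGroup
open scoped MatrixGroups ModularForm OnePoint Manifold Pointwise
open Fermat.Agent.S48.A Fermat.Agent.S21 Fermat.Agent.Lib.HeckeHom

variable {M : ℕ} [NeZero M]

instance finiteIndex_H1_per : (H1 M 1).FiniteIndex :=
  Subgroup.finiteIndex_of_le (Gamma1_le_H1 (M := M))

/-- **The period map is injective.** -/
theorem per_injective : Function.Injective (per M) := by
  rw [injective_iff_map_eq_zero]
  intro f hf
  have hF := isPrim_prim f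
  obtain ⟨c, hc⟩ := const_of_re_period_zero (Γ := H1 M 1) hF.mdiff
    (fun γ hγ => ⟨0, rfl, fun z => by
      rw [← per_apply hF ⟨γ, hγ⟩ z, hf]
      rfl⟩)
    (fun δ => hF.exists_lim δ)
  exact DFunLike.coe_injective (hF.eq_zero_of_const hc)

/-- An element of finite order has no periods. -/
theorem per_eq_zero_of_pow_eq_one (f : CuspForm (Gamma1 M) 2) (γ : H1 M 1) {n : ℕ} (hn : n ≠ 0)
    (h : γ ^ n = 1) : per M f (Additive.ofMul γ) = 0 := by
  have h1 : n • per M f (Additive.ofMul γ) = 0 := by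
    rw [← map_nsmul, ← ofMul_pow, h, ofMul_one, map_zero]
  rcases smul_eq_zero.mp h1 with h2 | h2
  · exact absurd h2 hn
  · exact h2

/-- Conjugates of powers of `T` have no periods. -/
theorem per_eq_zero_of_conj_T (f : CuspForm (Gamma1 M) 2) (k : ℕ) (g : SL(2, ℤ))
    (h : g⁻¹ * T ^ k * g ∈ H1 M 1) : per M f (Additive.ofMul ⟨_, h⟩) = 0 := by
  have hF := isPrim_prim f
  obtain ⟨L, hL⟩ := hF.exists_lim g⁻¹
  set c := per M f (Additive.ofMul ⟨_, h⟩) with hc
  have h1 : ∀ w : ℍ, prim f (g⁻¹ • (T ^ (k : ℤ) • w)) - prim f (g⁻¹ • w) = c := by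
    intro w
    rw [hc, per_apply hF ⟨_, h⟩ (g⁻¹ • w)]
    congr 2
    simp only [← mul_smul, zpow_natCast]
    congr 1
    group
  have h2 : Tendsto (fun w : ℍ => prim f (g⁻¹ • (T ^ (k : ℤ) • w)) - prim f (g⁻¹ • w)) atImInfty
      (𝓝 (L - L)) := (hL.comp (tendsto_T_zpow_smul_atImInfty k)).sub hL
  have h3 : Tendsto (fun _ : ℍ => c) atImInfty (𝓝 (L - L)) := by
    simpa only [h1] using h2
  have := tendsto_nhds_unique h3 tendsto_const_nhds
  simpa using this.symm

theorem S_pow_four : (S : SL(2, ℤ)) ^ 4 = 1 := by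
  ext i j
  fin_cases i <;> fin_cases j <;> simp [S, pow_succ, Matrix.mul_apply, Fin.sum_univ_two]

theorem ST_pow_six : (S * T : SL(2, ℤ)) ^ 6 = 1 := by
  ext i j
  fin_cases i <;> fin_cases j <;> simp [S, T, pow_succ, Matrix.mul_apply, Fin.sum_univ_two]

/-- **The periods are parabolic (and kill the elliptic elements).** -/
theorem per_mem_homPE (f : CuspForm (Gamma1 M) 2) : per M f ∈ Top.homPE (H1 M 1) ℂ := by
  rw [Top.mem_homPE]
  intro σ hσ k g h
  have hfin : ∀ n : ℕ, n ≠ 0 → σ ^ n = 1 → per M f (Additive.ofMul ⟨_, h⟩) = 0 := by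
    intro n hn hσn
    refine per_eq_zero_of_pow_eq_one f _ hn (Subtype.ext ?_)
    show (g⁻¹ * σ ^ k * g) ^ n = 1
    have : (g⁻¹ * σ ^ k * g) ^ n = g⁻¹ * (σ ^ k) ^ n * g := by
      have := conj_pow (a := g⁻¹) (b := σ ^ k) (i := n)
      simpa using this
    rw [this, ← pow_mul, mul_comm k n, pow_mul, hσn, one_pow]
    group
  rcases hσ with rfl | rfl | rfl
  · exact hfin 4 (by norm_num) S_pow_four
  · exact hfin 6 (by norm_num) ST_pow_six
  · exact per_eq_zero_of_conj_T f k g h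

/-- **Equivariance**: if `g = ∑ i, f ∣[2] α i` for a Hecke family `α` of matrices of positive
determinant, then the periods of `g` are given by the Hecke operator on `Hom(±Γ₁(M), ℂ)`. -/
theorem per_eq_heckeHom {φ : H1 M 1 →* GL (Fin 2) ℝ}
    (hφ : ∀ (γ : H1 M 1) (z : ℍ), φ γ • z = (γ : SL(2, ℤ)) • z)
    {ι : Type*} [Fintype ι] {α : ι → GL (Fin 2) ℝ}
    (h : IsHeckeFamily φ α) (hdet : ∀ i, 0 < (α i).val.det)
    (f g : CuspForm (Gamma1 M) 2) (hg : (g : ℍ → ℂ) = ∑ i, (f : ℍ → ℂ) ∣[(2 : ℤ)] α i) :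
    per M g = h.heckeHom (per M f) := by
  have hF := isPrim_prim f
  set G : ℍ → ℂ := fun z => ∑ i, prim f (α i • z) with hG
  have hGd : IsPrim (g : ℍ → ℂ) G := by
    intro τ
    have h1 : HasDerivAt (fun z : ℂ => ∑ i, ((fun w : ℍ => prim f (α i • w)) ∘ ofComplex) z)
        (∑ i, ((f : ℍ → ℂ) ∣[(2 : ℤ)] α i) τ) ↑τ :=
      HasDerivAt.fun_sum fun i _ => hasDerivAt_comp_smul_GL hF (α i) (hdet i) τ
    have h2 : g τ = ∑ i, ((f : ℍ → ℂ) ∣[(2 : ℤ)] α i) τ := by
      rw [hg, Finset.sum_apply]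
    rw [h2]
    exact h1
  refine AddMonoidHom.ext fun γ => ?_
  obtain ⟨γ, rfl⟩ := Additive.ofMul.surjective γ
  rw [per_apply hGd γ I, ← hφ γ I]
  exact h.sum_sub_sum (prim f) (per M f)
    (fun δ x => by rw [hφ δ x]; exact (per_apply hF δ x).symm) γ I

theorem inclH_smul (γ : H1 M 1) (z : ℍ) :
    Fermat.Agent.S48.BB.M.inclH (H1 M 1) γ • z = (γ : SL(2, ℤ)) • z := by
  rw [Fermat.Agent.S48.BB.M.inclH_apply]
  exact (MulAction.compHom_smul_def (mapGL ℝ) (γ : SL(2, ℤ)) z).symm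

/-- the period map intertwines `T_p` on forms with `T_p` on `Hom(±Γ₁(M), ℂ)`. -/
theorem per_TLin {p : ℕ} (hp : p.Prime) (hpM : ¬ p ∣ M) (f : CuspForm (Gamma1 M) 2) :
    per M (TLin M 2 hp hpM f) = TH M hp hpM (per M f) := by
  have : NeZero p := ⟨hp.ne_zero⟩
  exact per_eq_heckeHom inclH_smul (isHeckeFamily_T1 M hp hpM)
    (fun x => repT1_det_pos M p x) f _ (coe_TLin_eq_sum 2 hp hpM f)

/-- the period map intertwines `⟨d⟩` on forms with `⟨d⟩` on `Hom(±Γ₁(M), ℂ)`. -/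
theorem per_DLin (d : ZMod M) (f : CuspForm (Gamma1 M) 2) :
    per M (DLin M 2 d f) = DH M d (per M f) :=
  per_eq_heckeHom inclH_smul (isHeckeFamily_D M d)
    (fun u => repD_det_pos M d u) f _ (coe_DLin_eq_sum 2 d f)

end Fermat.Agent.S48.BB.H
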