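/-
S48 (Deligne-Serre), block BB, sub-block H (architect helper119, co-architect helper166).
FINAL ASSEMBLY: the contract `Top.HBlock` of helper89 for the operator families `Glue.THop M`,
`Glue.DHop M` of helper144 (attached to the Hecke families `repT1 M p` and `repD M p`).
-/
import Fermat.Agent.S48.BB.H.Par
import Fermat.Agent.S48.BB.H.PerProps
import Fermat.Agent.S48.BB.Glue.Ops

set_option autoImplicit false

noncomputable section

namespace Fermat.Agent.S48.BB.H

open CongruenceSubgroup
open Fermat.Agent.Lib.HeckeHom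
open scoped MatrixGroups

variable (M : ℕ) [NeZero M]

/-- **Block H.** -/
def hBlock : Top.HBlock M (Glue.THop M) (Glue.DHop M) where
  fg := fg_H1 M
  TH_mem p hp hpM ψ hψ :=
    haveI : NeZero p := ⟨hp.ne_zero⟩
    heckeHom_mem_homPE (isHeckeFamily_T1 M hp hpM) hψ
  DH_mem p _ _ ψ hψ := heckeHom_mem_homPE (isHeckeFamily_D M (p : ZMod M)) hψ
  DH_comm p _ _ q _ _ A _ ψ := DH_comm M (p : ZMod M) (q : ZMod M) ψ
  TS p hp hpM := (TLin M 2 hp hpM).toAddMonoidHom
  DS p _ _ := (DLin M 2 (p : ZMod M)).toAddMonoidHom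
  per := per M
  per_injective := per_injective
  per_mem := per_mem_homPE
  per_T p hp hpM f := per_TLin hp hpM f
  per_D p _ _ f := per_DLin (p : ZMod M) f
  neb_T p hp hpM χ f hf := hasNeb_TLin (h := f) hf hp hpM
  qCoeff_T p hp hpM χ f hf n := qCoeff_TLin_two (h := f) hf hp hpM n
  DS_eq p hp hpM χ f hf := DLin_of_hasNeb (h := f) hf (isUnit_natCast_of_prime M hp hpM)

theorem nonempty_hBlock : Nonempty (Top.HBlock M (Glue.THop M) (Glue.DHop M)) := ⟨hBlock M⟩

end Fermat.Agent.S48.BB.H

end
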